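import Fermat.Agent.DR.S35.TorsionLift
import Fermat.Agent.DR.ModGal.FrobCompat
import Fermat.Agent.DR.ModGal.Unipotent
import Fermat.Agent.JAN.AnnFinal
import Fermat.Agent.CMP.S35Assembly
import Fermat.Agent.DR.AllInputs

set_option autoImplicit false
set_option linter.unusedSectionVars false
set_option linter.style.haveILetI false

/-!
# The Frobenius relation at `q ∥ M`: `(φ² - q²) t (φ² - 1) = 0` on `J₀(M)[p^∞]`
-/

noncomputable section

open AlgebraicCurve ModularCurve
open Fermat.Agent.JRED Fermat.Agent.RR Fermat.Agent.DR.Mod Fermat.Agent.DR.ModGal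
open Fermat.Agent.S30Wiring (AnemicAlg anemicIncl anemicEval)

namespace Fermat.Agent.DR.S35

local notation "Qbar" => AlgebraicClosure ℚ
local notation "Γℚ" => (AlgebraicClosure ℚ ≃ₐ[ℚ] AlgebraicClosure ℚ)

theorem anemicIncl_mem_heckeAway {S : Finset ℕ} {q : ℕ} (hq : q ∈ S) (t : AnemicAlg S) :
    anemicIncl S t ∈ heckeAway q := by
  induction t using MvPolynomial.induction_on with
  | C a =>
    rw [MvPolynomial.algHom_C]
    exact Subalgebra.algebraMap_mem _ a
  | add p q hp hq =>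
    rw [map_add]
    exact Subalgebra.add_mem _ hp hq
  | mul_X p ℓ hp =>
    rw [map_mul, anemicIncl, MvPolynomial.rename_X]
    refine Subalgebra.mul_mem _ hp (heckeGen_mem_heckeAway (ℓ := ℓ.1) ?_)
    intro h
    exact ℓ.2 (h ▸ hq)

/-- **The Frobenius relation at `q ∥ M' q`.** -/
theorem drFrobInput_aux {p M q : ℕ} [NeZero M] [NeZero (M * q)] {S : Finset ℕ}
    (hqS : q ∈ S) (hp : p.Prime) (hq : q.Prime) (hqp : q ≠ p) (hqM : ¬ q ∣ M) :
    CMP.S35Assembly.DRFrobInput (M * q) M q p S := by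
  letI := heckeModuleBar (M * q)
  intro hMS t ht B hB φ hφ n x hx
  have i0 : Fact q.Prime := ⟨hq⟩
  have hπ : Function.Surjective (IsLocalRing.residue B) := IsLocalRing.residue_surjective
  have i1 : CharP (IsLocalRing.ResidueField B) q := Mod.charP_of_liesOverPrime hπ hq hB
  have i2 : IsAlgClosed (IsLocalRing.ResidueField B) := isAlgClosed_of_surjective hπ
  have i3 : ExpChar (IsLocalRing.ResidueField B) q := ExpChar.prime hq
  have hdeg : DegreeInput M (IsLocalRing.ResidueField B) :=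
    degreeInput' (NeZero.ne M) hqM
  have hgood : GoodReduction M (IsLocalRing.ResidueField B) :=
    goodReduction hπ hq (NeZero.ne M) hqM
  have i4 := hdeg.functionField
  have i5 := hdeg.functionField'
  have i6 : FunctionField Qbar (modularFunctionFieldBar (M * q)) := functionField_bar (M * q)
  obtain ⟨w, -, Se⟩ := exists_setup_bar (M := M) (q := q) hπ hqM
  obtain ⟨X, hX, -⟩ := exists_modular_nodalDatum hB hqM Se hdeg hgood
  obtain ⟨r, hr⟩ := exists_placeRed hdeg Se.surj hgood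
  obtain ⟨tb, h1, h2⟩ := exists_hecke_poly hq hqM Se hX.eq₁ hX.eq₂ hdeg hr (deg_place_eq r)
    (anemicIncl_mem_heckeAway hqS t)
  obtain ⟨C, hfix, hN⟩ := isCompat_frob_sq Se hdeg hgood hX.eq₁ hX.eq₂ hX.shift hφ
  have hm : 0 < p ^ n := pow_pos hp.pos n
  have hmk : ((p ^ n : ℕ) : IsLocalRing.ResidueField B) ≠ 0 := by
    rw [Nat.cast_pow]
    refine pow_ne_zero _ fun h => hqp ?_
    rw [CharP.cast_eq_zero_iff _ q] at h
    exact (Nat.prime_dvd_prime_iff_eq hq hp).mp h
  have h3 : ∀ y : Pic0 (IsLocalRing.ResidueField B)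
      (modularFunctionFieldFullC (IsLocalRing.ResidueField B) M), p ^ n • y = 0 → tb y = 0 := by
    intro y hy
    obtain ⟨z, hz, rfl⟩ := exists_torsion_lift hπ hq hB hdeg hgood hr hp hqp.symm n hy
    rw [← h1, JAN.AnnFinal.smul_eq_zero_of_torsion hMS ht hm.ne' hz, map_zero]
  let T : JZero (M * q) →+ JZero (M * q) := DistribSMul.toAddMonoidHom _ (anemicIncl S t)
  have key := C.frob_sq hπ hmk (fun s hs => (hfix s hs).1) (fun s hs => (hfix s hs).2) hN hm T
    (fun x y₁ y₂ h => by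
      obtain ⟨-, t1, t2⟩ := h.torsion
      have h4 := h2 (p ^ n) x y₁ y₂ hm h
      rw [h3 y₁ t1, h3 y₂ t2] at h4
      exact h4) hx
  simp only [map_mul, mul_smul] at key
  exact key

/-- **`DRFrobInput`.** -/
theorem drFrobInput (p : ℕ) [Fact p.Prime] (M M' q : ℕ) [NeZero M] [NeZero M'] (S : Finset ℕ)
    (_ : p ∈ S) (hMS : ∀ r : ℕ, r.Prime → r ∣ M → r ∈ S) (hq : q.Prime) (hqp : q ≠ p)
    (hM : M = q * M') (hqM : ¬ q ∣ M') : CMP.S35Assembly.DRFrobInput M M' q p S := by
  rw [mul_comm] at hM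
  subst hM
  exact drFrobInput_aux (hMS q hq (dvd_mul_left q M')) Fact.out hq hqp hqM

/-- **S35** as a proposition. -/
theorem s35Prop : CMP.S58Assembly.S35Prop :=
  CMP.S35Assembly.s35_of
    (fun p hp N _ S _ _ => (GAL.Final.galInputs allInputs N p hp.out).inputs hp.out S)
    drFrobInput

end Fermat.Agent.DR.S35
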