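import Fermat.Agent.DR.Mod.HeckeRed
import Fermat.Agent.DR.Mod.KroneckerModular
import Fermat.Agent.DR.Nodal.Count
import Fermat.Agent.S27D.Final
import Fermat.Agent.S27Lib.FrobExist

set_option autoImplicit false
set_option linter.unusedSectionVars false
set_option linter.style.haveILetI false

/-!
# The reduction `J₀(M)[p^n] → Pic⁰(F̄_M)[p^n]` is surjective, `q ∤ pM`
-/

noncomputable section

open AlgebraicCurve ModularCurve
open Fermat.Agent.JRED Fermat.Agent.RR Fermat.Agent.DR.Mod

namespace Fermat.Agent.DR.S35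

local notation "Qbar" => AlgebraicClosure ℚ

section Residue

variable {A : ValuationSubring Qbar} {k : Type} [Field k] {π : A →+* k} {q : ℕ}

theorem isAlgebraic_residue (hπ : Function.Surjective π) (hq : q.Prime)
    (hA : A.LiesOverPrime q) [CharP k q] :
    letI := ZMod.algebra k q
    Algebra.IsAlgebraic (ZMod q) k := by
  letI := ZMod.algebra k q
  have : Fact q.Prime := ⟨hq⟩
  refine ⟨fun c => ?_⟩
  by_cases hc : c = 0
  · rw [hc]
    exact isAlgebraic_zero
  · obtain ⟨m, hm0, -, hcm⟩ := Fermat.Agent.Flat.LiftInv.exists_pow_eq_one hq hA hπ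
      (ker_eq_maximalIdeal hπ) c hc
    refine ⟨Polynomial.X ^ m - 1, ?_, ?_⟩
    · exact (Polynomial.monic_X_pow_sub_C (1 : ZMod q) hm0.ne').ne_zero
    · simp [hcm]

theorem card_torsion_res (hπ : Function.Surjective π) (hq : q.Prime)
    (hA : A.LiesOverPrime q) [CharP k q] [IsAlgClosed k] (F : Type*) [Field F] [Algebra k F]
    [FunctionField k F] {p : ℕ} (hp : p.Prime) (hpq : p ≠ q) (n : ℕ) :
    Nat.card (Pic0.torsion k F (p ^ n)) = p ^ (2 * genusFF k F * n) := by
  letI := ZMod.algebra k q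
  have : Fact q.Prime := ⟨hq⟩
  have : Fact p.Prime := ⟨hp⟩
  have := isAlgebraic_residue hπ hq hA
  exact Fermat.Agent.S27Lib.natCard_torsion_charP q k F p hpq n

theorem card_torsion_bar (F : Type*) [Field F] [Algebra Qbar F]
    [FunctionField Qbar F] {p : ℕ} (hp : p.Prime) (n : ℕ) :
    Nat.card (Pic0.torsion Qbar F (p ^ n)) = p ^ (2 * genusFF Qbar F * n) := by
  have : Fact p.Prime := ⟨hp⟩
  exact Fermat.Agent.S27D.natCard_torsion_charZero
    (fun p _ K F _ _ _ _ _ _ _ ℓ _ hℓ k =>
      Fermat.Agent.S27Lib.natCard_torsion_charP p K F ℓ hℓ k) Qbar F p n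

end Residue

section Lift

variable {A : ValuationSubring Qbar} {k : Type} [Field k] {π : A →+* k} {q M : ℕ} [NeZero M]
  [CharP k q] [IsAlgClosed k] [FunctionField Qbar (modularFunctionFieldBar M)]
  [FunctionField k (modularFunctionFieldFullC k M)]
  {r : Place Qbar (modularFunctionFieldBar M) → Place k (modularFunctionFieldFullC k M)}

/-- **Lifting torsion classes.** -/
theorem exists_torsion_lift (hπ : Function.Surjective π) (hq : q.Prime)
    (hA : A.LiesOverPrime q) (hD : DegreeInput M k) (hgood : GoodReduction M k)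
    (hr : PlaceRed (hD.redDatum hπ) r) {p : ℕ} (hp : p.Prime) (hpq : p ≠ q) (n : ℕ)
    {y : JZeroC k M} (hy : p ^ n • y = 0) :
    ∃ x : JZero M, p ^ n • x = 0 ∧ redPic hr (deg_place_eq r) x = y := by
  have hpk : ((p ^ n : ℕ) : k) ≠ 0 := by
    rw [Nat.cast_pow]
    refine pow_ne_zero _ fun h => hpq ?_
    rw [CharP.cast_eq_zero_iff k q] at h
    exact ((Nat.prime_dvd_prime_iff_eq hq hp).mp h).symm
  set f := redPic hr (deg_place_eq r) with hf
  set T : Set (JZero M) := {x | p ^ n • x = 0} with hT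
  set T' : Set (JZeroC k M) := {y | p ^ n • y = 0} with hT'
  have e1 : T = (Pic0.torsion Qbar (modularFunctionFieldBar M) (p ^ n) : Set (JZero M)) := by
    ext x
    exact mem_torsion'.symm
  have e2 : T' = (Pic0.torsion k (modularFunctionFieldFullC k M) (p ^ n) : Set (JZeroC k M)) := by
    ext x
    exact mem_torsion'.symm
  have c1 : T.ncard = p ^ (2 * genusFF Qbar (modularFunctionFieldBar M) * n) := by
    rw [e1, ← card_torsion_bar (modularFunctionFieldBar M) hp n]
    rfl
  have c2 : T'.ncard = p ^ (2 * genusFF k (modularFunctionFieldFullC k M) * n) := by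
    rw [e2, ← card_torsion_res hπ hq hA (modularFunctionFieldFullC k M) hp hpq n]
    rfl
  have hg : genusFF Qbar (modularFunctionFieldBar M) =
    genusFF k (modularFunctionFieldFullC k M) := hgood
  rw [← hg, ← c1] at c2
  have hpos : T'.ncard ≠ 0 := by
    rw [c2, c1]
    exact (pow_pos hp.pos _).ne'
  have hfin : T'.Finite := Set.finite_of_ncard_ne_zero hpos
  have hsub : f '' T ⊆ T' := by
    rintro _ ⟨x, hx, rfl⟩
    have hx' : p ^ n • x = 0 := hx
    show p ^ n • f x = 0
    rw [← map_nsmul, hx', map_zero]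
  have hinj : Set.InjOn f T := by
    intro x hx x' hx' h
    have hx1 : p ^ n • x = 0 := hx
    have hx2 : p ^ n • x' = 0 := hx'
    rw [← sub_eq_zero]
    refine redPic_torsion hD hπ hgood hr hpk ?_ ?_
    · rw [nsmul_sub, hx1, hx2, sub_zero]
    · rw [map_sub, ← hf, h, sub_self]
  have himg : (f '' T).ncard = T.ncard := hinj.ncard_image
  have heq : f '' T = T' := Set.eq_of_subset_of_ncard_le hsub (by rw [himg, c2]) hfin
  have hyT : y ∈ T' := hy
  rw [← heq] at hyT
  obtain ⟨x, hx, hxy⟩ := hyT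
  exact ⟨x, hx, hxy⟩

end Lift

end Fermat.Agent.DR.S35
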